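import Mathlib

/-!
# S55 / layer G / block EXIST / leaf EX-IDX (helper717), part 1: generic power-index algebra

`powIdx n G = [G : Gⁿ]` for a commutative group `G`; behaviour under isomorphisms and finite
products; the additive form `[A : n A]` used by `G/Exist/Spec.lean` (`pMul`).
Mathlib only.
-/

set_option autoImplicit false

namespace Fermat.Agent.S55.G.Exist.H717

/-- The index `[G : Gⁿ]` of the subgroup of `n`-th powers (`0` if infinite). -/
noncomputable def powIdx (n : ℕ) (G : Type*) [CommGroup G] : ℕ :=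
  (powMonoidHom n : G →* G).range.index

lemma powIdx_def (n : ℕ) (G : Type*) [CommGroup G] :
    powIdx n G = (powMonoidHom n : G →* G).range.index := rfl

lemma powIdx_congr {G H : Type*} [CommGroup G] [CommGroup H] (e : G ≃* H) (n : ℕ) :
    powIdx n G = powIdx n H := by
  unfold powIdx
  have : (powMonoidHom n : H →* H).range =
      ((powMonoidHom n : G →* G).range).map (e : G →* H) := by
    ext y
    simp only [MonoidHom.mem_range, powMonoidHom_apply, Subgroup.mem_map, MonoidHom.coe_coe,
      exists_exists_eq_and]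
    constructor
    · rintro ⟨x, rfl⟩
      exact ⟨e.symm x, by simp⟩
    · rintro ⟨x, rfl⟩
      exact ⟨e x, by simp⟩
  rw [this, Subgroup.index_map_equiv]

lemma range_powMonoidHom_pi {ι : Type*} (G : ι → Type*) [∀ i, CommGroup (G i)] (n : ℕ) :
    (powMonoidHom n : (∀ i, G i) →* (∀ i, G i)).range =
      Subgroup.pi Set.univ (fun i => (powMonoidHom n : G i →* G i).range) := by
  ext y
  simp only [MonoidHom.mem_range, powMonoidHom_apply, Subgroup.mem_pi, Set.mem_univ, forall_true_left]
  constructor
  · rintro ⟨x, rfl⟩ i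
    exact ⟨x i, rfl⟩
  · intro h
    choose x hx using h
    exact ⟨x, funext hx⟩

/-- Dependent version of `Subgroup.index_pi`. -/
lemma index_pi_dep {ι : Type*} [Fintype ι] {G : ι → Type*} [∀ i, Group (G i)]
    (H : ∀ i, Subgroup (G i)) :
    (Subgroup.pi Set.univ H).index = ∏ i, (H i).index := by
  simp_rw [Subgroup.index, ← Nat.card_pi]
  refine Nat.card_congr
    ((Quotient.congrRight (fun x y ↦ ?_)).trans (Setoid.piQuotientEquiv _).symm)
  rw [QuotientGroup.leftRel_pi]

lemma powIdx_pi {ι : Type*} [Fintype ι] (G : ι → Type*) [∀ i, CommGroup (G i)] (n : ℕ) :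
    powIdx n (∀ i, G i) = ∏ i, powIdx n (G i) := by
  unfold powIdx
  rw [range_powMonoidHom_pi, index_pi_dep]

/-- The additive form: `[A : n A]` for `A = Additive G`. -/
lemma index_range_nsmul_additive (n : ℕ) (G : Type*) [CommGroup G] :
    (AddMonoidHom.range (nsmulAddMonoidHom (α := Additive G) n)).index = powIdx n G := by
  unfold powIdx
  have : AddMonoidHom.range (nsmulAddMonoidHom (α := Additive G) n) =
      Subgroup.toAddSubgroup (powMonoidHom n : G →* G).range := by
    ext y
    constructor
    · rintro ⟨x, rfl⟩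
      exact ⟨x.toMul, rfl⟩
    · rintro ⟨x, hx⟩
      exact ⟨Additive.ofMul x, hx⟩
  rw [this, Subgroup.index_toAddSubgroup]

/-- Units of a ring, up to ring isomorphism. -/
lemma powIdx_units_congr {R R' : Type*} [CommRing R] [CommRing R'] (e : R ≃+* R') (n : ℕ) :
    powIdx n Rˣ = powIdx n R'ˣ :=
  powIdx_congr (Units.mapEquiv e.toMulEquiv) n

/-- Units of a finite product of rings. -/
lemma powIdx_units_pi {ι : Type*} [Fintype ι] (R : ι → Type*) [∀ i, CommRing (R i)] (n : ℕ) :
    powIdx n (∀ i, R i)ˣ = ∏ i, powIdx n (R i)ˣ := by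
  rw [powIdx_congr (MulEquiv.piUnits (M := R)) n, powIdx_pi]

end Fermat.Agent.S55.G.Exist.H717
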