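import Fermat.Agent.S55.G.PL0H713
import Fermat.Agent.S55.H424.LocalFldPow
import Fermat.Agent.S55.G.Exist.H717.PowIdx

/-!
# S55 / layer G / block EXIST / leaf EX-IDX (helper717), part 2: the local power index of a
finite extension of `ℚ_q` containing `μ_p`

For a finite extension `E / ℚ_q` containing a primitive `p`-th root of unity:
`[Eˣ : (Eˣ)ᵖ] = p ^ (2 + [E : ℚ_q])` if `q = p`, and `= p ^ 2` if `q ≠ p`.
-/

set_option autoImplicit false
set_option linter.deprecated false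
set_option linter.style.haveILetI false
set_option linter.unusedSectionVars false

open IsLocalRing

namespace Fermat.Agent.S55.G.Exist.H717

open Fermat.Agent.S55.Local Fermat.Agent.S55.L

section

variable (q : ℕ) [Fact q.Prime] (E : Type) [Field E] [Algebra ℚ_[q] E] [FiniteDimensional ℚ_[q] E]

/-- The ring of integers of `E` (helper713's `intVS`). -/
noncomputable abbrev intE : ValuationSubring E := H713.intVS ℤ_[q] ℚ_[q] E

lemma isLocalRingOfIntegers_intE : IsLocalRingOfIntegers (intE q E) :=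
  Fermat.Agent.S55.G.PL0H713.isLocalRingOfIntegers_intVS q E

include q in
lemma isLocalFld_E : IsLocalFld E := Fermat.Agent.S55.G.PL0H713.isLocalFld_of_finite_padic q E

/-- The image of a `q`-adic integer lies in the ring of integers of `E`. -/
lemma algebraMap_mem_intE (x : ℤ_[q]) : algebraMap ℚ_[q] E (x : ℚ_[q]) ∈ intE q E := by
  rw [H713.mem_intVS]
  exact (toL ℤ_[q] ℚ_[q] E).isIntegralElem_map

/-- A natural number prime to `q` is a unit of the ring of integers of `E`. -/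
lemma isUnit_natCast_intE (p : ℕ) (hp : ¬ q ∣ p) : IsUnit ((p : ℕ) : intE q E) := by
  have hu : IsUnit ((p : ℕ) : ℤ_[q]) := by
    rw [PadicInt.isUnit_iff, PadicInt.norm_natCast_eq_one_iff]
    exact (Nat.Prime.coprime_iff_not_dvd (Fact.out : q.Prime)).2 hp
  obtain ⟨u, hu⟩ := hu
  have h1 : ((u : ℤ_[q]) : ℚ_[q]) = (p : ℚ_[q]) := by rw [hu]; simp
  have h2 : (((u⁻¹ : ℤ_[q]ˣ) : ℤ_[q]) : ℚ_[q]) * (p : ℚ_[q]) = 1 := by
    rw [← h1, ← PadicInt.coe_mul, Units.inv_mul, PadicInt.coe_one]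
  refine IsUnit.of_mul_eq_one ⟨algebraMap ℚ_[q] E (((u⁻¹ : ℤ_[q]ˣ) : ℤ_[q]) : ℚ_[q]),
    algebraMap_mem_intE q E _⟩ ?_
  apply Subtype.ext
  change ((p : ℕ) : E) * algebraMap ℚ_[q] E _ = 1
  rw [← map_natCast (algebraMap ℚ_[q] E), ← map_mul, mul_comm, h2, map_one]

end

section CardQuot

variable (p : ℕ) [Fact p.Prime] (E : Type) [Field E] [Algebra ℚ_[p] E] [FiniteDimensional ℚ_[p] E]

lemma natCard_padicInt_quot_maximalIdeal :
    Nat.card (ℤ_[p] ⧸ maximalIdeal ℤ_[p]) = p := by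
  have e : (ℤ_[p] ⧸ maximalIdeal ℤ_[p]) ≃ ZMod p := (PadicInt.residueField (p := p)).toEquiv
  rw [Nat.card_congr e, Nat.card_zmod]

set_option synthInstance.maxHeartbeats 400000 in
/-- `|O_E / p O_E| = p ^ [E : ℚ_p]`, for the integral closure of `ℤ_p` in `E`. -/
lemma natCard_integralClosure_quot :
    letI : Algebra ℤ_[p] E := (toL ℤ_[p] ℚ_[p] E).toAlgebra
    Nat.card (integralClosure ℤ_[p] E ⧸ Ideal.span {((p : ℕ) : integralClosure ℤ_[p] E)}) =
      p ^ Module.finrank ℚ_[p] E := by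
  letI : Algebra ℤ_[p] E := (toL ℤ_[p] ℚ_[p] E).toAlgebra
  haveI : IsScalarTower ℤ_[p] ℚ_[p] E := IsScalarTower.of_algebraMap_eq (fun _ => rfl)
  haveI : Algebra.IsSeparable ℚ_[p] E := inferInstance
  haveI : Module.Finite ℤ_[p] (integralClosure ℤ_[p] E) :=
    IsIntegralClosure.finite ℤ_[p] ℚ_[p] E (integralClosure ℤ_[p] E)
  haveI : IsFractionRing (integralClosure ℤ_[p] E) E :=
    IsIntegralClosure.isFractionRing_of_finite_extension ℤ_[p] ℚ_[p] E _
  have h1 := Ideal.finrank_quotient_map (R := ℤ_[p]) (S := integralClosure ℤ_[p] E)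
    (maximalIdeal ℤ_[p]) ℚ_[p] E
  have hmap : Ideal.map (algebraMap ℤ_[p] (integralClosure ℤ_[p] E)) (maximalIdeal ℤ_[p]) =
      Ideal.span {((p : ℕ) : integralClosure ℤ_[p] E)} := by
    rw [PadicInt.maximalIdeal_eq_span_p, Ideal.map_span, Set.image_singleton, map_natCast]
  rw [← hmap, ← h1]
  have h2 := @Module.natCard_eq_pow_finrank (ℤ_[p] ⧸ maximalIdeal ℤ_[p])
    (integralClosure ℤ_[p] E ⧸
      Ideal.map (algebraMap ℤ_[p] (integralClosure ℤ_[p] E)) (maximalIdeal ℤ_[p]))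
    (Ideal.Quotient.field _).toDivisionRing _ _ _
  rw [natCard_padicInt_quot_maximalIdeal p] at h2
  exact h2

/-- `|A / p A| = p ^ [E : ℚ_p]` for the ring of integers `A = intE p E`. -/
lemma natCard_intE_quot :
    Nat.card (intE p E ⧸ Ideal.span {((p : ℕ) : intE p E)}) = p ^ Module.finrank ℚ_[p] E := by
  letI : Algebra ℤ_[p] E := (toL ℤ_[p] ℚ_[p] E).toAlgebra
  rw [← natCard_integralClosure_quot p E]
  have e := H713.intVSEquiv ℤ_[p] ℚ_[p] E
  have he : Ideal.span {((p : ℕ) : intE p E)} =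
      Ideal.map (e : integralClosure ℤ_[p] E →+* intE p E)
        (Ideal.span {((p : ℕ) : integralClosure ℤ_[p] E)}) := by
    rw [Ideal.map_span, Set.image_singleton]
    congr 2
    exact (map_natCast (e : integralClosure ℤ_[p] E →+* intE p E) p).symm
  exact (Nat.card_congr (Ideal.quotientEquiv _ _ e he).toEquiv).symm

end CardQuot

section LPI

variable (q : ℕ) [Fact q.Prime] (E : Type) [Field E] [Algebra ℚ_[q] E] [FiniteDimensional ℚ_[q] E]

/-- **Local power index** of a finite extension `E/ℚ_q` containing `μ_p`: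
`[Eˣ : (Eˣ)ᵖ] = p ^ (2 + [E : ℚ_q])` if `q = p` and `p ^ 2` otherwise. -/
theorem powIdx_units_padic (p : ℕ) (hp : p.Prime) {ζ : E} (hζ : IsPrimitiveRoot ζ p) :
    powIdx p Eˣ = p ^ (2 + if q = p then Module.finrank ℚ_[q] E else 0) := by
  haveI : NeZero p := ⟨hp.ne_zero⟩
  haveI := isLocalFld_E q E
  have hμ : Nat.card (rootsOfUnity p E) = p := hζ.card_rootsOfUnity
  unfold powIdx
  by_cases hqp : q = p
  · subst hqp
    rw [if_pos rfl, Fermat.Agent.S55.H424.isLocalFld_index_range_pow E (intE q E)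
      (isLocalRingOfIntegers_intE q E) q hp.ne_zero, hμ, natCard_intE_quot]
    ring
  · rw [if_neg hqp, Fermat.Agent.S55.H424.isLocalFld_index_range_pow_of_isUnit E (intE q E)
      (isLocalRingOfIntegers_intE q E) p
      (isUnit_natCast_intE q E p
        (fun h => hqp ((Nat.prime_dvd_prime_iff_eq (Fact.out : q.Prime) hp).1 h))), hμ]
    ring

end LPI

end Fermat.Agent.S55.G.Exist.H717
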