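import Fermat.Agent.S55.G.Places177.Bij
import Fermat.Agent.S55.G.LocH897.ASRing
import Fermat.Agent.S55.G.Exist.H717.LocalIdx

/-!
# S55 / layer G / block EXIST / leaf EX-IDX (helper717), part 3: the power index of the
`S`-idèles

`[J_S(K) : p J_S(K)] = p ^ (2 t + n)`, `n = [K : ℚ]`, `t = ∑_{q ∈ S} #MaxSpec (ℚ_q ⊗ K)`,
for a number field `K ∋ μ_p` and `p ∈ S`.
-/

set_option autoImplicit false
set_option linter.deprecated false
set_option linter.style.haveILetI false
set_option linter.unusedSectionVars false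

open scoped NumberField TensorProduct
open scoped Fermat.Agent.S55.G.Places177

namespace Fermat.Agent.S55.G.Exist.H717

open Fermat.Agent.S55.G Fermat.Agent.S55.G.Places177

section OnePrime

variable (q : ℕ) [Fact q.Prime] (K : Type) [Field K] [NumberField K]

/-- The number of maximal ideals of `ℚ_q ⊗ K`. -/
noncomputable def nPl : ℕ := Nat.card (MaximalSpectrum (BQ q K))

lemma powIdx_units_FQ (p : ℕ) (hp : p.Prime) {ζ : K} (hζ : IsPrimitiveRoot ζ p)
    (𝔫 : MaximalSpectrum (BQ q K)) :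
    powIdx p (BQ q K ⧸ 𝔫.asIdeal)ˣ =
      p ^ (2 + if q = p then Module.finrank ℚ_[q] (FQ q K 𝔫) else 0) := by
  haveI := FQ.finiteDimensional 𝔫
  have hζ' : IsPrimitiveRoot (toFQ 𝔫 ζ) p := hζ.map_of_injective (toFQ 𝔫).injective
  exact powIdx_units_padic q (FQ q K 𝔫) p hp hζ'

/-- `[(ℚ_q ⊗ K)ˣ : p-th powers] = p ^ (2 * #places + [q = p] n)`. -/
theorem powIdx_units_BQ (p : ℕ) (hp : p.Prime) {ζ : K} (hζ : IsPrimitiveRoot ζ p) :
    powIdx p (BQ q K)ˣ =
      p ^ (2 * nPl q K + if q = p then Module.finrank ℚ K else 0) := by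
  classical
  haveI := isArtinianRing_BQ q K
  haveI := isReduced_BQ q K
  letI : Fintype (MaximalSpectrum (BQ q K)) := Fintype.ofFinite _
  rw [powIdx_units_congr (IsArtinianRing.equivPi (BQ q K)).toRingEquiv p,
    powIdx_units_pi (fun 𝔫 : MaximalSpectrum (BQ q K) => BQ q K ⧸ 𝔫.asIdeal) p]
  have h1 : ∀ 𝔫 : MaximalSpectrum (BQ q K), powIdx p (BQ q K ⧸ 𝔫.asIdeal)ˣ =
      p ^ (2 + if q = p then Module.finrank ℚ_[q] (FQ q K 𝔫) else 0) :=
    fun 𝔫 => powIdx_units_FQ q K p hp hζ 𝔫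
  rw [Finset.prod_congr rfl (fun 𝔫 _ => h1 𝔫), Finset.prod_pow_eq_pow_sum,
    Finset.sum_add_distrib, Finset.sum_const, Finset.card_univ, smul_eq_mul, mul_comm,
    nPl, Nat.card_eq_fintype_card]
  congr 2
  by_cases hqp : q = p
  · simp only [if_pos hqp]
    exact sum_finrank_FQ
  · simp only [if_neg hqp]
    exact Finset.sum_const_zero

end OnePrime

section AllPrimes

variable (S : Finset Nat.Primes) (K : Type) [Field K] [NumberField K]

/-- The number of maximal ideals of `ℚ_q ⊗ K`, for a bundled prime. -/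
noncomputable def nPl' (q : Nat.Primes) : ℕ := @nPl (q : ℕ) ⟨q.2⟩ K _ _

/-- The total number of places above `S` (in the model `∏_q ℚ_q ⊗ K`). -/
noncomputable def nPlS : ℕ := ∑ q : S, nPl' K q.1

lemma powIdx_units_tensor (q : Nat.Primes) (p : ℕ) (hp : p.Prime) {ζ : K}
    (hζ : IsPrimitiveRoot ζ p) :
    powIdx p (K ⊗[ℚ] Qq q)ˣ =
      p ^ (2 * nPl' K q + if (q : ℕ) = p then Module.finrank ℚ K else 0) := by
  haveI : Fact (Nat.Prime (q : ℕ)) := ⟨q.2⟩
  rw [powIdx_units_congr (Algebra.TensorProduct.comm ℚ K (Qq q)).toRingEquiv p]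
  exact powIdx_units_BQ (q : ℕ) K p hp hζ

/-- **The power index of the `S`-idèles**: `[J_S(K) : J_S(K)ᵖ] = p ^ (2 t + n)`. -/
theorem powIdx_units_AS (p : ℕ) (hp : p.Prime) (hpS : (⟨p, hp⟩ : Nat.Primes) ∈ S) {ζ : K}
    (hζ : IsPrimitiveRoot ζ p) :
    powIdx p (AS S K)ˣ = p ^ (2 * nPlS S K + Module.finrank ℚ K) := by
  classical
  rw [powIdx_units_congr (LocH897.asEquivPi S K).toRingEquiv p,
    powIdx_units_pi (fun q : S => K ⊗[ℚ] Qq q.1) p,
    Finset.prod_congr rfl (fun q _ => powIdx_units_tensor K q.1 p hp hζ),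
    Finset.prod_pow_eq_pow_sum, Finset.sum_add_distrib, ← Finset.mul_sum]
  congr 2
  rw [Finset.sum_eq_single (⟨⟨p, hp⟩, hpS⟩ : S)]
  · simp
  · intro q _ hq
    rw [if_neg]
    intro h
    apply hq
    apply Subtype.ext
    apply Subtype.ext
    exact h
  · intro h
    exact absurd (Finset.mem_univ _) h

end AllPrimes

end Fermat.Agent.S55.G.Exist.H717
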