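import Fermat.Agent.S55.G.SesH604
import Fermat.Agent.S55.G.Exist.Spec
import Fermat.Agent.S55.G.Exist.H717.Decomp

/-!
# S55 / layer G / block EXIST / leaf EX-IDX (helper717): `PowIndexCompareSpec`

`theorem powIndexCompare : Fermat.Agent.S55.G.Exist.PowIndexCompareSpec` (UNCONDITIONAL):
for a number field `K ∋ μ_p`, `p` odd, `p ∈ S`:
`[J_S(K) : p J_S(K)] = p ^ (2 t + n) = [E_S(K) : p E_S(K)] ^ 2`,
`t = #{primes of K above S}`, `n = [K : ℚ]`.

Ingredients (all on main): local power index (helper424), `ℚ_q ⊗ K` and its places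
(helper177 `placeEquiv`, `sum_finrank_FQ`), `asEquivPi` (helper897), the `S`-unit power index
(helper604 `index_range_nsmul_sUnit_of_primitiveRoot`).
-/

set_option autoImplicit false
set_option linter.deprecated false
set_option linter.style.haveILetI false
set_option linter.unusedSectionVars false

open scoped NumberField TensorProduct
open IsDedekindDomain

namespace Fermat.Agent.S55.G.Exist.H717

open Fermat.Agent.S55.G Fermat.Agent.S55.G.Places177

variable (S : Finset Nat.Primes) (K : Type) [Field K] [NumberField K]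

/-- The primes of `K` containing the rational prime `q`. -/
abbrev PrimeAt (q : Nat.Primes) : Type :=
  {w : HeightOneSpectrum (𝓞 K) // (((q : ℕ) : ℕ) : 𝓞 K) ∈ w.asIdeal}

lemma nPl'_eq (q : Nat.Primes) : nPl' K q = Nat.card (PrimeAt K q) := by
  haveI : Fact (Nat.Prime (q : ℕ)) := ⟨q.2⟩
  exact Nat.card_congr (placeEquiv (q := (q : ℕ)) (L := K))

/-- A prime of `𝓞 K` contains at most one rational prime. -/
lemma prime_unique (w : HeightOneSpectrum (𝓞 K)) (q q' : Nat.Primes)
    (h : ((q : ℕ) : 𝓞 K) ∈ w.asIdeal) (h' : ((q' : ℕ) : 𝓞 K) ∈ w.asIdeal) : q = q' := by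
  by_contra hne
  have hcop : Nat.Coprime (q : ℕ) (q' : ℕ) :=
    (Nat.coprime_primes q.2 q'.2).2 (fun h => hne (Subtype.ext h))
  have h1 : ((Nat.gcd (q : ℕ) (q' : ℕ) : ℤ) : 𝓞 K) ∈ w.asIdeal := by
    rw [Nat.gcd_eq_gcd_ab]
    push_cast
    exact w.asIdeal.add_mem (w.asIdeal.mul_mem_right _ h) (w.asIdeal.mul_mem_right _ h')
  rw [hcop] at h1
  apply w.isPrime.ne_top
  rw [Ideal.eq_top_iff_one]
  simpa using h1

/-- The primes above `S` are the disjoint union of the primes above the `q ∈ S`. -/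
noncomputable def primeInEquiv : (Σ q : S, PrimeAt K q.1) ≃ PrimeIn S K :=
  Equiv.ofBijective (fun x => ⟨x.2.1, ⟨x.1.1, x.1.2, x.2.2⟩⟩)
    ⟨by
      rintro ⟨q, w, hw⟩ ⟨q', w', hw'⟩ h
      have hww : w = w' := congrArg Subtype.val h
      subst hww
      have hq : q = q' := Subtype.ext (prime_unique K w q.1 q'.1 hw hw')
      subst hq
      rfl,
    by
      rintro ⟨w, q, hq, hw⟩
      exact ⟨⟨⟨q, hq⟩, ⟨w, hw⟩⟩, rfl⟩⟩

lemma finite_primeAt (q : Nat.Primes) : Finite (PrimeAt K q) := by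
  haveI : Fact (Nat.Prime (q : ℕ)) := ⟨q.2⟩
  haveI := isArtinianRing_BQ (q : ℕ) K
  exact Finite.of_equiv _ (placeEquiv (q := (q : ℕ)) (L := K))

/-- `∑_{q ∈ S} #MaxSpec (ℚ_q ⊗ K) = #{primes of K above S}`. -/
theorem nPlS_eq : nPlS S K = Nat.card (PrimeIn S K) := by
  classical
  haveI : ∀ q : S, Finite (PrimeAt K q.1) := fun q => finite_primeAt K q.1
  rw [← Nat.card_congr (primeInEquiv S K), Nat.card_sigma]
  exact Finset.sum_congr rfl (fun q _ => nPl'_eq K q.1)

/-- **The power index of the `S`-idèles**, additive form. -/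
theorem index_pMul_AS (p : ℕ) (hp : p.Prime) (hpS : (⟨p, hp⟩ : Nat.Primes) ∈ S) {ζ : K}
    (hζ : IsPrimitiveRoot ζ p) :
    (pMul p (Additive (AS S K)ˣ)).index =
      p ^ (2 * Nat.card (PrimeIn S K) + Module.finrank ℚ K) := by
  rw [← nPlS_eq, ← powIdx_units_AS S K p hp hpS hζ]
  exact index_range_nsmul_additive p (AS S K)ˣ

/-- A number field containing a primitive `p`-th root of unity, `p > 2`, has
`[K : ℚ] = 2 #{infinite places}`. -/
theorem finrank_eq_two_mul_card_infinitePlace (p : ℕ) (hp2 : 2 < p) {ζ : K}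
    (hζ : IsPrimitiveRoot ζ p) :
    Module.finrank ℚ K = 2 * Fintype.card (NumberField.InfinitePlace K) := by
  have h0 : NumberField.InfinitePlace.nrRealPlaces K = 0 :=
    NumberField.InfinitePlace.IsPrimitiveRoot.nrRealPlaces_eq_zero_of_two_lt hp2 hζ
  have h1 := NumberField.InfinitePlace.card_add_two_mul_card_eq_rank K
  have h2 := NumberField.InfinitePlace.card_eq_nrRealPlaces_add_nrComplexPlaces K
  rw [h0, zero_add] at h1 h2
  rw [← h1, h2]

/-- **EX-IDX.** -/
theorem powIndexCompare : PowIndexCompareSpec := by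
  intro p hp hp2 S K _ _ hpS hζ
  obtain ⟨ζ, hζ⟩ := hζ
  have hpp : p.Prime := hp.out
  have hJ := index_pMul_AS S K p hpp hpS hζ
  have hE : (pMul p (sUnit S K)).index =
      p ^ (Fintype.card (NumberField.InfinitePlace K) + Nat.card (PrimeIn S K)) :=
    SesH604.index_range_nsmul_sUnit_of_primitiveRoot S K p hpp.ne_zero hζ
  have hn := finrank_eq_two_mul_card_infinitePlace K p
    (lt_of_le_of_ne hpp.two_le (Ne.symm hp2)) hζ
  refine ⟨?_, ?_, ?_⟩
  · rw [hJ]; exact pow_ne_zero _ hpp.ne_zero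
  · rw [hE]; exact pow_ne_zero _ hpp.ne_zero
  · rw [hJ, hE, hn, ← pow_mul]
    exact le_of_eq (congrArg (p ^ ·) (by ring))

/-- The exact values. -/
theorem index_pMul_AS_eq_sq (p : ℕ) (hp : p.Prime) (hp2 : p ≠ 2) (hpS : (⟨p, hp⟩ : Nat.Primes) ∈ S)
    {ζ : K} (hζ : IsPrimitiveRoot ζ p) :
    (pMul p (Additive (AS S K)ˣ)).index = (pMul p (sUnit S K)).index ^ 2 := by
  have hJ := index_pMul_AS S K p hp hpS hζ
  have hE : (pMul p (sUnit S K)).index =
      p ^ (Fintype.card (NumberField.InfinitePlace K) + Nat.card (PrimeIn S K)) :=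
    SesH604.index_range_nsmul_sUnit_of_primitiveRoot S K p hp.ne_zero hζ
  have hn := finrank_eq_two_mul_card_infinitePlace K p
    (lt_of_le_of_ne hp.two_le (Ne.symm hp2)) hζ
  rw [hJ, hE, hn, ← pow_mul]
  exact congrArg (p ^ ·) (by ring)

end Fermat.Agent.S55.G.Exist.H717
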